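/-
Cluster L / PD, work package (M3), part 1 (helper85): positive parabolic elements of `SL(2, ℤ)`,
periods of `T` on `G ⧸ Γ`, primitive positive parabolic elements of `Γ`.
-/
import Fermat.Agent.L.PD.Defs
import Fermat.Agent.S16.LB.Residue.Parabolic

set_option autoImplicit false

noncomputable section

namespace Fermat.Agent.LPD

open scoped MatrixGroups
open ModularGroup Fermat.Agent.S16.LB.Residue

/-! ### Positive parabolic elements are the conjugates of `T ^ k`, `k > 0` -/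

theorem conj_T_pow_coe (x : SL(2, ℤ)) (k : ℕ) :
    ((x⁻¹ * T ^ k * x : SL(2, ℤ)) : Matrix (Fin 2) (Fin 2) ℤ) =
      !![1 + x 1 0 * x 1 1 * k, x 1 1 ^ 2 * k; -(x 1 0 ^ 2 * k), 1 - x 1 0 * x 1 1 * k] := by
  have h := conj_T_zpow_coe x (k : ℤ)
  rw [zpow_natCast] at h
  exact h

theorem conj'_T_pow_coe (x : SL(2, ℤ)) (k : ℕ) :
    ((x * T ^ k * x⁻¹ : SL(2, ℤ)) : Matrix (Fin 2) (Fin 2) ℤ) =
      !![1 - x 0 0 * x 1 0 * k, x 0 0 ^ 2 * k; -(x 1 0 ^ 2 * k), 1 + x 0 0 * x 1 0 * k] := by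
  have h := conj'_T_zpow_coe x (k : ℤ)
  rw [zpow_natCast] at h
  exact h

theorem isPosPar_conj (g : SL(2, ℤ)) {k : ℕ} (hk : 0 < k) : IsPosPar (g⁻¹ * T ^ k * g) := by
  have hM := conj_T_pow_coe g k
  have hdet := det_eq g
  have hk' : (0 : ℤ) < k := by exact_mod_cast hk
  refine ⟨?_, ?_, ?_, ?_⟩
  · intro h1
    have h01 : (g⁻¹ * T ^ k * g : SL(2, ℤ)) 0 1 = 0 := by rw [h1]; simp
    have h10 : (g⁻¹ * T ^ k * g : SL(2, ℤ)) 1 0 = 0 := by rw [h1]; simp
    rw [hM] at h01 h10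
    simp only [Matrix.of_apply, Matrix.cons_val_zero, Matrix.cons_val_one,
      Matrix.cons_val', Matrix.empty_val', Matrix.cons_val_fin_one] at h01 h10
    have hd : g 1 1 = 0 := by
      rcases mul_eq_zero.mp h01 with h | h
      · exact pow_eq_zero_iff (two_ne_zero) |>.mp h
      · exact absurd h hk'.ne'
    have hc : g 1 0 = 0 := by
      rcases mul_eq_zero.mp (neg_eq_zero.mp h10) with h | h
      · exact pow_eq_zero_iff (two_ne_zero) |>.mp h
      · exact absurd h hk'.ne'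
    rw [hd, hc] at hdet
    simp at hdet
  · rw [hM, Matrix.trace_fin_two]
    simp only [Matrix.of_apply, Matrix.cons_val_zero, Matrix.cons_val_one,
      Matrix.cons_val', Matrix.empty_val', Matrix.cons_val_fin_one]
    ring
  · rw [hM]
    simp only [Matrix.of_apply, Matrix.cons_val_zero, Matrix.cons_val_one,
      Matrix.cons_val', Matrix.empty_val', Matrix.cons_val_fin_one]
    positivity
  · rw [hM]
    simp only [Matrix.of_apply, Matrix.cons_val_zero, Matrix.cons_val_one,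
      Matrix.cons_val', Matrix.empty_val', Matrix.cons_val_fin_one]
    have : 0 ≤ g 1 0 ^ 2 * (k : ℤ) := by positivity
    linarith

theorem IsPosPar.exists_conj {γ : SL(2, ℤ)} (h : IsPosPar γ) :
    ∃ (g : SL(2, ℤ)) (k : ℕ), 0 < k ∧ γ = g⁻¹ * T ^ k * g := by
  obtain ⟨hne, htr, h01, h10⟩ := h
  obtain ⟨x, k, hx⟩ := exists_conj_of_trace_two γ htr
  have hM := conj_T_zpow_coe x k
  have hdet := det_eq x
  rw [← hx] at hM
  have e01 : γ 0 1 = x 1 1 ^ 2 * k := by rw [hM]; simp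
  have e10 : γ 1 0 = -(x 1 0 ^ 2 * k) := by rw [hM]; simp
  have hk0 : k ≠ 0 := by
    rintro rfl
    apply hne
    rw [hx]; simp
  have hkpos : 0 < k := by
    by_contra hcon
    have hkneg : k < 0 := lt_of_le_of_ne (not_lt.mp hcon) hk0
    rw [e01] at h01
    rw [e10] at h10
    have hd : x 1 1 = 0 := by
      by_contra hd
      have : 0 < x 1 1 ^ 2 := by positivity
      nlinarith
    have hc : x 1 0 = 0 := by
      by_contra hc
      have : 0 < x 1 0 ^ 2 := by positivity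
      nlinarith
    rw [hd, hc] at hdet
    simp at hdet
  refine ⟨x, k.toNat, by omega, ?_⟩
  rw [hx, ← zpow_natCast, Int.toNat_of_nonneg hkpos.le]

/-- If `a T^k a⁻¹ = T^k'` with `k, k' > 0` then `k = k'` and `a = ± T^j`. -/
theorem eq_of_conj_T_pow {a : SL(2, ℤ)} {k k' : ℕ} (hk : 0 < k)
    (h : a * T ^ k * a⁻¹ = T ^ k') : k = k' ∧ ∃ j : ℤ, a = T ^ j ∨ a = -(T ^ j) := by
  have hM := conj'_T_pow_coe a k
  rw [h] at hM
  have hdet := det_eq a
  have hk' : (0 : ℤ) < k := by exact_mod_cast hk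
  have hT : ((T ^ k' : SL(2, ℤ)) : Matrix (Fin 2) (Fin 2) ℤ) = !![1, (k' : ℤ); 0, 1] := by
    have := ModularGroup.coe_T_zpow (k' : ℤ)
    rw [zpow_natCast] at this
    exact this
  rw [hT] at hM
  have e10 := congrFun (congrFun hM 1) 0
  have e01 := congrFun (congrFun hM 0) 1
  simp only [Matrix.of_apply, Matrix.cons_val_zero, Matrix.cons_val_one,
    Matrix.cons_val', Matrix.empty_val', Matrix.cons_val_fin_one] at e10 e01
  have hc : a 1 0 = 0 := by
    have h0 : a 1 0 ^ 2 * (k : ℤ) = 0 := by linarith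
    rcases mul_eq_zero.mp h0 with h | h
    · exact pow_eq_zero_iff (two_ne_zero) |>.mp h
    · exact absurd h hk'.ne'
  rw [hc] at hdet
  have hunit : a 0 0 * a 1 1 = 1 := by linarith
  have h00 : a 0 0 = 1 ∨ a 0 0 = -1 := Int.eq_one_or_neg_one_of_mul_eq_one hunit
  have hsq : a 0 0 ^ 2 = 1 := by rcases h00 with h | h <;> rw [h] <;> norm_num
  rw [hsq, one_mul] at e01
  refine ⟨by exact_mod_cast e01.symm, ?_⟩
  rcases h00 with h1 | h1
  · exact ⟨a 0 1, Or.inl (eq_T_zpow_of_col h1 hc)⟩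
  · refine ⟨(-a) 0 1, Or.inr ?_⟩
    have hneg00 : (-a) 0 0 = 1 := by
      simp [h1]
    have hneg10 : (-a) 1 0 = 0 := by
      simp [hc]
    have := eq_T_zpow_of_col hneg00 hneg10
    rw [← this, neg_neg]

end Fermat.Agent.LPD
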