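/-
Cluster L / PD, work package (M3), part 2 (helper85): periods of `T` on `G ⧸ Γ` and primitive
positive parabolic elements of `Γ`.
-/
import Fermat.Agent.L.PD.Conj.Basic

set_option autoImplicit false

noncomputable section

namespace Fermat.Agent.LPD

open scoped MatrixGroups
open ModularGroup Fermat.Agent.S16.LB.Residue

variable (Γ : Subgroup SL(2, ℤ))

/-- `g⁻¹ T^n g ∈ Γ` iff the period of `T` at `g Γ` divides `n`. -/
theorem conj_T_pow_mem_iff (g : SL(2, ℤ)) (n : ℕ) :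
    g⁻¹ * T ^ n * g ∈ Γ ↔
      Function.minimalPeriod (fun x : SL(2, ℤ) ⧸ Γ => T • x) (g : SL(2, ℤ) ⧸ Γ) ∣ n := by
  rw [← MulAction.pow_smul_eq_iff_minimalPeriod_dvd, MulAction.Quotient.smul_mk, eq_comm,
    QuotientGroup.eq, smul_eq_mul, mul_assoc]

theorem minimalPeriod_T_pos [Γ.FiniteIndex] (x : SL(2, ℤ) ⧸ Γ) :
    0 < Function.minimalPeriod (fun x : SL(2, ℤ) ⧸ Γ => T • x) x := by
  have : Finite (SL(2, ℤ) ⧸ Γ) := Subgroup.finite_quotient_of_finiteIndex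
  exact Function.minimalPeriod_pos_of_mem_periodicPts
    (Function.Injective.mem_periodicPts (MulAction.injective T) x)

theorem minimalPeriod_T_zpow_smul (j : ℤ) (x : SL(2, ℤ) ⧸ Γ) :
    Function.minimalPeriod (fun x : SL(2, ℤ) ⧸ Γ => T • x) (T ^ j • x) =
      Function.minimalPeriod (fun x : SL(2, ℤ) ⧸ Γ => T • x) x := by
  have key : ∀ n : ℕ, T ^ n • (T ^ j • x) = T ^ j • x ↔ T ^ n • x = x := by
    intro n
    rw [smul_smul, ← zpow_natCast, ← zpow_add, add_comm, zpow_add, ← smul_smul, zpow_natCast]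
    exact (MulAction.injective (T ^ j)).eq_iff
  apply Nat.dvd_antisymm
  · rw [← MulAction.pow_smul_eq_iff_minimalPeriod_dvd, key,
      MulAction.pow_smul_eq_iff_minimalPeriod_dvd]
  · rw [← MulAction.pow_smul_eq_iff_minimalPeriod_dvd, ← key,
      MulAction.pow_smul_eq_iff_minimalPeriod_dvd]

/-- Primitive positive parabolic elements of `Γ`. -/
def IsPrimPosPar (γ : Γ) : Prop :=
  IsPosPar (γ : SL(2, ℤ)) ∧ ∀ (δ : Γ) (n : ℕ), IsPosPar (δ : SL(2, ℤ)) → δ ^ n = γ → n = 1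

theorem conj_T_pow_pow (g : SL(2, ℤ)) (m n : ℕ) :
    (g⁻¹ * T ^ m * g) ^ n = g⁻¹ * T ^ (m * n) * g := by
  induction n with
  | zero => simp
  | succ n ih =>
    rw [pow_succ, ih, Nat.mul_succ, pow_add]
    group

theorem coe_cuspElt (x : SL(2, ℤ) ⧸ Γ) :
    ((cuspElt Γ x : Γ) : SL(2, ℤ)) =
      (Quotient.out x)⁻¹ * T ^ Function.minimalPeriod (fun x : SL(2, ℤ) ⧸ Γ => T • x) x *
        Quotient.out x := rfl

theorem isPosPar_cuspElt [Γ.FiniteIndex] (x : SL(2, ℤ) ⧸ Γ) :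
    IsPosPar ((cuspElt Γ x : Γ) : SL(2, ℤ)) :=
  isPosPar_conj _ (minimalPeriod_T_pos Γ x)

/-- If `g⁻¹ T^k g = h⁻¹ T^m h` with `k > 0` then `k = m` and `g = ± T^j h`. -/
theorem eq_of_conj_eq_conj {g h : SL(2, ℤ)} {k m : ℕ} (hk : 0 < k)
    (e : g⁻¹ * T ^ k * g = h⁻¹ * T ^ m * h) :
    k = m ∧ ∃ j : ℤ, h = T ^ j * g ∨ h = -(T ^ j * g) := by
  have e' : (h * g⁻¹) * T ^ k * (h * g⁻¹)⁻¹ = T ^ m := by
    have : (h * g⁻¹) * T ^ k * (h * g⁻¹)⁻¹ = h * (g⁻¹ * T ^ k * g) * h⁻¹ := by group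
    rw [this, e]; group
  obtain ⟨hkm, j, hj⟩ := eq_of_conj_T_pow hk e'
  refine ⟨hkm, j, ?_⟩
  rcases hj with hj | hj
  · left; rw [← hj]; group
  · right
    have : h = (h * g⁻¹) * g := by group
    rw [this, hj, neg_mul]

theorem cuspElt_isPrimPosPar [Γ.FiniteIndex] (x : SL(2, ℤ) ⧸ Γ) : IsPrimPosPar Γ (cuspElt Γ x) := by
  refine ⟨isPosPar_cuspElt Γ x, ?_⟩
  intro δ n hδ hn
  set g := Quotient.out x with hg
  set k := Function.minimalPeriod (fun x : SL(2, ℤ) ⧸ Γ => T • x) x with hk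
  have hkpos : 0 < k := minimalPeriod_T_pos Γ x
  obtain ⟨h, m, hm, hδe⟩ := hδ.exists_conj
  have hn' : ((δ : SL(2, ℤ))) ^ n = g⁻¹ * T ^ k * g := by
    have := congrArg (Subtype.val) hn
    rw [Subgroup.coe_pow] at this
    rw [this]; rfl
  rw [hδe, conj_T_pow_pow] at hn'
  obtain ⟨hkm, j, hj⟩ := eq_of_conj_eq_conj hkpos hn'.symm
  -- `δ = g⁻¹ T^m g`
  have hδg : (δ : SL(2, ℤ)) = g⁻¹ * T ^ m * g := by
    rw [hδe]
    rcases hj with hj | hj
    · rw [hj]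
      have : (T ^ j * g)⁻¹ * T ^ m * (T ^ j * g) = g⁻¹ * ((T ^ j)⁻¹ * T ^ m * T ^ j) * g := by
        group
      rw [this]
      have hc : (T ^ j)⁻¹ * T ^ m * T ^ j = T ^ m := by
        rw [← zpow_natCast T m, ← zpow_neg, ← zpow_add, ← zpow_add]
        congr 1; ring
      rw [hc]
    · rw [hj]
      have : (-(T ^ j * g))⁻¹ * T ^ m * (-(T ^ j * g)) =
          g⁻¹ * ((T ^ j)⁻¹ * T ^ m * T ^ j) * g := by
        have h1 : (-(T ^ j * g))⁻¹ = -((T ^ j * g)⁻¹) := by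
          ext i j'
          fin_cases i <;> fin_cases j' <;>
            simp [Matrix.SpecialLinearGroup.coe_inv, Matrix.adjugate_fin_two]
        rw [h1, neg_mul, neg_mul, mul_neg, neg_neg]
        group
      rw [this]
      have hc : (T ^ j)⁻¹ * T ^ m * T ^ j = T ^ m := by
        rw [← zpow_natCast T m, ← zpow_neg, ← zpow_add, ← zpow_add]
        congr 1; ring
      rw [hc]
  have hmem : g⁻¹ * T ^ m * g ∈ Γ := hδg ▸ δ.2
  have hdvd : k ∣ m := by
    have := (conj_T_pow_mem_iff Γ g m).mp hmem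
    rwa [hg, QuotientGroup.out_eq'] at this
  -- `k = m * n`, `k ∣ m`, `m > 0`
  have hle : m ≤ k := by
    rw [hkm]
    rcases Nat.eq_zero_or_pos n with h0 | h0
    · rw [h0, Nat.mul_zero] at hkm; omega
    · exact Nat.le_mul_of_pos_right m h0
  have hmk : m = k := Nat.le_antisymm hle (Nat.le_of_dvd hm hdvd)
  rw [← hmk] at hkm
  have : m * 1 = m * n := by rw [Nat.mul_one]; exact hkm
  exact (Nat.eq_of_mul_eq_mul_left hm this).symm

end Fermat.Agent.LPD
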