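/-
Cluster L / PD, work package (M3), part 3 (helper85): the primitive positive parabolic elements of
`Γ` are, up to `Γ`-conjugacy, the `cuspElt Γ q.out`, one for each orbit `q` of `⟨T⟩` on `G ⧸ Γ`.
-/
import Fermat.Agent.L.PD.Conj.Period

set_option autoImplicit false

noncomputable section

namespace Fermat.Agent.LPD

open scoped MatrixGroups
open ModularGroup Fermat.Agent.S16.LB.Residue

variable (Γ : Subgroup SL(2, ℤ))

/-- The orbits of `⟨T⟩` on `G ⧸ Γ` (the cusps of `Γ`). -/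
abbrev TOrbits : Type :=
  Quotient (MulAction.orbitRel (Subgroup.zpowers T) (SL(2, ℤ) ⧸ Γ))

theorem T_zpow_conj (j : ℤ) (k : ℕ) : (T ^ j)⁻¹ * T ^ k * T ^ j = T ^ k := by
  rw [← zpow_natCast T k, ← zpow_neg, ← zpow_add, ← zpow_add]
  congr 1; ring

/-- Every primitive positive parabolic element is `Γ`-conjugate to the element attached to a
cusp. -/
theorem exists_orbit_conj [Γ.FiniteIndex] (γ : Γ) (h : IsPrimPosPar Γ γ) :
    ∃ (O : TOrbits Γ) (β : Γ), γ = β * cuspElt Γ O.out * β⁻¹ := by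
  obtain ⟨hpos, hprim⟩ := h
  obtain ⟨g, m, hm, hγ⟩ := hpos.exists_conj
  set x : SL(2, ℤ) ⧸ Γ := (g : SL(2, ℤ) ⧸ Γ) with hx
  set k := Function.minimalPeriod (fun x : SL(2, ℤ) ⧸ Γ => T • x) x with hk
  have hkpos : 0 < k := minimalPeriod_T_pos Γ x
  have hdvd : k ∣ m := (conj_T_pow_mem_iff Γ g m).mp (hγ ▸ γ.2)
  have hδmem : g⁻¹ * T ^ k * g ∈ Γ := (conj_T_pow_mem_iff Γ g k).mpr dvd_rfl
  obtain ⟨n, hn⟩ := hdvd
  have hδn : (⟨g⁻¹ * T ^ k * g, hδmem⟩ : Γ) ^ n = γ := by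
    apply Subtype.ext
    rw [Subgroup.coe_pow]
    show (g⁻¹ * T ^ k * g) ^ n = (γ : SL(2, ℤ))
    rw [conj_T_pow_pow, ← hn, hγ]
  have hn1 : n = 1 := hprim _ n (isPosPar_conj g hkpos) hδn
  rw [hn1, Nat.mul_one] at hn
  -- the orbit
  set O : TOrbits Γ := Quotient.mk _ x with hO
  have hrel : MulAction.orbitRel (Subgroup.zpowers T) (SL(2, ℤ) ⧸ Γ) O.out x :=
    Quotient.exact (Quotient.out_eq O)
  rw [MulAction.orbitRel_apply, MulAction.mem_orbit_iff] at hrel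
  obtain ⟨⟨t, ht⟩, hty⟩ := hrel
  obtain ⟨j, rfl⟩ := Subgroup.mem_zpowers_iff.mp ht
  have hy : O.out = T ^ j • x := hty.symm
  have hperiod : Function.minimalPeriod (fun x : SL(2, ℤ) ⧸ Γ => T • x) O.out = k := by
    rw [hy, minimalPeriod_T_zpow_smul]
  set g' := Quotient.out (O.out) with hg'
  have hg'x : (g' : SL(2, ℤ) ⧸ Γ) = ((T ^ j * g : SL(2, ℤ)) : SL(2, ℤ) ⧸ Γ) := by
    rw [hg', QuotientGroup.out_eq', hy, hx, MulAction.Quotient.smul_mk, smul_eq_mul]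
  have hβ : (T ^ j * g)⁻¹ * g' ∈ Γ := QuotientGroup.eq.mp hg'x.symm
  refine ⟨O, ⟨(T ^ j * g)⁻¹ * g', hβ⟩, ?_⟩
  apply Subtype.ext
  rw [Subgroup.coe_mul, Subgroup.coe_mul, Subgroup.coe_inv, coe_cuspElt, hperiod, hγ, ← hn]
  show g⁻¹ * T ^ m * g = ((T ^ j * g)⁻¹ * g') * (g'⁻¹ * T ^ m * g') * ((T ^ j * g)⁻¹ * g')⁻¹
  have : ((T ^ j * g)⁻¹ * g') * (g'⁻¹ * T ^ m * g') * ((T ^ j * g)⁻¹ * g')⁻¹ =
      g⁻¹ * ((T ^ j)⁻¹ * T ^ m * T ^ j) * g := by group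
  rw [this, T_zpow_conj]

/-- Conjugate cusp elements belong to the same cusp. -/
theorem orbit_eq_of_conj [Γ.FiniteIndex] (hneg : (-1 : SL(2, ℤ)) ∈ Γ) (O O' : TOrbits Γ) (β : Γ)
    (h : cuspElt Γ O'.out = β * cuspElt Γ O.out * β⁻¹) : O = O' := by
  set x := O.out with hx
  set x' := O'.out with hx'
  set g := Quotient.out x with hg
  set g' := Quotient.out x' with hg'
  set k := Function.minimalPeriod (fun x : SL(2, ℤ) ⧸ Γ => T • x) x with hk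
  set k' := Function.minimalPeriod (fun x : SL(2, ℤ) ⧸ Γ => T • x) x' with hk'
  have hkpos : 0 < k := minimalPeriod_T_pos Γ x
  have h' : g'⁻¹ * T ^ k' * g' = (β : SL(2, ℤ)) * (g⁻¹ * T ^ k * g) * (β : SL(2, ℤ))⁻¹ :=
    congrArg Subtype.val h
  have e : (g * (β : SL(2, ℤ))⁻¹)⁻¹ * T ^ k * (g * (β : SL(2, ℤ))⁻¹) = g'⁻¹ * T ^ k' * g' := by
    rw [h']; group
  obtain ⟨-, j, hj⟩ := eq_of_conj_eq_conj hkpos e
  have hx'x : x' = T ^ j • x := by
    have hxg : x = (g : SL(2, ℤ) ⧸ Γ) := (QuotientGroup.out_eq' x).symm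
    have hxg' : x' = (g' : SL(2, ℤ) ⧸ Γ) := (QuotientGroup.out_eq' x').symm
    rw [hxg', hxg, MulAction.Quotient.smul_mk, smul_eq_mul, eq_comm, QuotientGroup.eq]
    rcases hj with hj | hj
    · rw [hj]
      have : (T ^ j * g)⁻¹ * (T ^ j * (g * (β : SL(2, ℤ))⁻¹)) = (β : SL(2, ℤ))⁻¹ := by group
      rw [this]
      exact Γ.inv_mem β.2
    · rw [hj]
      have : (T ^ j * g)⁻¹ * -(T ^ j * (g * (β : SL(2, ℤ))⁻¹)) = (β : SL(2, ℤ))⁻¹ * (-1) := by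
        rw [mul_neg, mul_neg, mul_one]
        congr 1
        group
      rw [this]
      exact Γ.mul_mem (Γ.inv_mem β.2) hneg
  have : (Quotient.mk _ x' : TOrbits Γ) = Quotient.mk _ x := by
    apply Quotient.sound
    show MulAction.orbitRel (Subgroup.zpowers T) (SL(2, ℤ) ⧸ Γ) x' x
    rw [MulAction.orbitRel_apply, MulAction.mem_orbit_iff]
    exact ⟨⟨T ^ j, Subgroup.zpow_mem_zpowers T j⟩, hx'x.symm⟩
  rw [hx, hx', Quotient.out_eq, Quotient.out_eq] at this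
  exact this.symm

end Fermat.Agent.LPD
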